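import Fermat.Agent.Classic.Rep3
import Fermat.Agent.Corollaries.Surj.Det
import Fermat.Agent.Frob.Charpoly

/-!
# `W[p]` is reducible if `p ∣ ℓ + 1 - a_ℓ` for all good primes `ℓ`

By Frobenius' density theorem every `σ` satisfies `tr σ = 1 + det σ` on `W[p]`; if `c` is an element
of determinant `- 1`, then `c` has eigenvalues `1, - 1`, and in a basis of eigenvectors of `c` the
upper left entry of every `σ` is `1`; hence the product of the upper right entry of `σ` and the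
lower left entry of `τ` is `0` for all `σ, τ`, and one of the two eigenlines is stable.
-/

set_option autoImplicit false

noncomputable section

namespace Fermat.Agent.Cor.Eleven

open WeierstrassCurve Fermat.Agent.Classic
open Matrix

section linear

variable {k : Type*} [Field k]

/-- A homomorphism to the `2 × 2` matrices with `tr = 1 + det` everywhere and an element of
determinant `- 1` has a stable line, in characteristic different from `2`. -/
theorem exists_stable_of_trace (h2 : (2 : k) ≠ 0) {Γ : Type*} [Group Γ]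
    (r : Γ →* Matrix (Fin 2) (Fin 2) k) (htr : ∀ σ, (r σ).trace = 1 + (r σ).det) {c : Γ}
    (hc : (r c).det = -1) :
    ∃ v : Fin 2 → k, v ≠ 0 ∧ ∀ σ, ∃ a : k, r σ *ᵥ v = a • v := by
  have htc : (r c).trace = 0 := by rw [htr, hc]; ring
  -- the eigenvectors of `r c`
  obtain ⟨v, hv, hv1⟩ : ∃ v : Fin 2 → k, v ≠ 0 ∧ (r c - 1) *ᵥ v = 0 := by
    rw [Matrix.exists_mulVec_eq_zero_iff]
    rw [Matrix.det_fin_two] at hc ⊢
    rw [Matrix.trace_fin_two] at htc
    simp only [Matrix.sub_apply, one_apply_eq, ne_eq, Fin.isValue, zero_ne_one, not_false_eq_true,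
      one_apply_ne, sub_zero, one_ne_zero]
    linear_combination hc - htc
  obtain ⟨w, hw, hw1⟩ : ∃ w : Fin 2 → k, w ≠ 0 ∧ (r c + 1) *ᵥ w = 0 := by
    rw [Matrix.exists_mulVec_eq_zero_iff]
    rw [Matrix.det_fin_two] at hc ⊢
    rw [Matrix.trace_fin_two] at htc
    simp only [Matrix.add_apply, one_apply_eq, ne_eq, Fin.isValue, zero_ne_one, not_false_eq_true,
      one_apply_ne, add_zero, one_ne_zero]
    linear_combination hc + htc
  have hv2 : r c *ᵥ v = v := by
    rw [Matrix.sub_mulVec, Matrix.one_mulVec, sub_eq_zero] at hv1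
    exact hv1
  have hw2 : r c *ᵥ w = -w := by
    rw [Matrix.add_mulVec, Matrix.one_mulVec, add_eq_zero_iff_eq_neg] at hw1
    exact hw1
  -- the matrix of the basis `v, w`
  set U : Matrix (Fin 2) (Fin 2) k := !![v 0, w 0; v 1, w 1] with hU
  have hUmul : ∀ x : Fin 2 → k, U *ᵥ x = x 0 • v + x 1 • w := by
    intro x
    funext i
    fin_cases i <;> simp [hU, Matrix.mulVec, dotProduct, Fin.sum_univ_two] <;> ring
  have hdet : U.det ≠ 0 := by
    intro h0
    obtain ⟨x, hx, hx0⟩ := Matrix.exists_mulVec_eq_zero_iff.mpr h0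
    rw [hUmul] at hx0
    have h3 := congrArg (fun y => r c *ᵥ y) hx0
    simp only [Matrix.mulVec_add, Matrix.mulVec_smul, Matrix.mulVec_zero, hv2, hw2] at h3
    have h4 : (2 * x 0) • v = 0 := by
      have h5 : (x 0 • v + x 1 • w) + (x 0 • v + x 1 • -w) = 0 := by rw [hx0, h3, add_zero]
      rw [smul_neg] at h5
      rw [two_mul, add_smul]
      rw [← h5]; abel
    have h6 : x 0 = 0 := by
      rcases smul_eq_zero.mp h4 with h7 | h7
      · exact (mul_eq_zero.mp h7).resolve_left h2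
      · exact absurd h7 hv
    rw [h6, zero_smul, zero_add] at hx0
    have h7 : x 1 = 0 := (smul_eq_zero.mp hx0).resolve_right hw
    apply hx
    funext i
    fin_cases i
    · exact h6
    · exact h7
  have hUi : U * U⁻¹ = 1 := Matrix.mul_nonsing_inv U (isUnit_iff_ne_zero.mpr hdet)
  have hiU : U⁻¹ * U = 1 := Matrix.nonsing_inv_mul U (isUnit_iff_ne_zero.mpr hdet)
  set M : Γ → Matrix (Fin 2) (Fin 2) k := fun σ => U⁻¹ * r σ * U with hM
  have hMmul : ∀ σ τ, M (σ * τ) = M σ * M τ := by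
    intro σ τ
    simp only [hM, map_mul]
    calc U⁻¹ * (r σ * r τ) * U = U⁻¹ * r σ * (1 : Matrix (Fin 2) (Fin 2) k) * r τ * U := by
          rw [mul_one]; simp only [mul_assoc]
      _ = U⁻¹ * r σ * U * (U⁻¹ * r τ * U) := by rw [← hUi]; simp only [mul_assoc]
  have hMtr : ∀ σ, (M σ).trace = (r σ).trace := by
    intro σ
    simp only [hM]
    rw [Matrix.trace_mul_comm, ← mul_assoc, hUi, one_mul]
  have hMdet : ∀ σ, (M σ).det = (r σ).det := by
    intro σ
    simp only [hM, Matrix.det_mul]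
    have h3 := congrArg Matrix.det hiU
    rw [Matrix.det_mul, Matrix.det_one] at h3
    linear_combination (r σ).det * h3
  have hrU : ∀ σ, r σ * U = U * M σ := by
    intro σ
    simp only [hM]
    rw [← mul_assoc, ← mul_assoc, hUi, one_mul]
  have hMc : M c = !![1, 0; 0, -1] := by
    have h3 : r c * U = U * !![1, 0; 0, -1] := by
      have hv0 := congrFun hv2 0
      have hv1' := congrFun hv2 1
      have hw0 := congrFun hw2 0
      have hw1' := congrFun hw2 1
      simp only [Matrix.mulVec, dotProduct, Fin.sum_univ_two, Pi.neg_apply] at hv0 hv1' hw0 hw1'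
      ext i j
      fin_cases i <;> fin_cases j <;>
        simp [hU, Matrix.mul_apply, Fin.sum_univ_two, hv0, hv1', hw0, hw1']
    simp only [hM]
    rw [mul_assoc, h3, ← mul_assoc, hiU, one_mul]
  have h00 : ∀ σ, M σ 0 0 = 1 := by
    intro σ
    have h3 := htr σ
    have h4 := htr (c * σ)
    rw [← hMtr, ← hMdet, Matrix.trace_fin_two] at h3 h4
    rw [hMmul, Matrix.det_mul, hMc] at h4
    have h5 : (!![1, 0; 0, -1] : Matrix (Fin 2) (Fin 2) k).det = -1 := by
      rw [Matrix.det_fin_two]; simp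
    rw [h5] at h4
    simp only [Matrix.mul_apply, Fin.sum_univ_two, Matrix.of_apply, Matrix.cons_val', Matrix.cons_val_zero,
      Matrix.cons_val_one, Matrix.empty_val', Matrix.cons_val_fin_one] at h4
    have h6 : (2 : k) * (M σ 0 0 - 1) = 0 := by linear_combination h3 + h4
    exact sub_eq_zero.mp ((mul_eq_zero.mp h6).resolve_left h2)
  have hprod : ∀ σ τ, M σ 0 1 * M τ 1 0 = 0 := by
    intro σ τ
    have h3 := h00 (σ * τ)
    rw [hMmul, Matrix.mul_apply, Fin.sum_univ_two, h00, h00] at h3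
    linear_combination h3
  have hUe0 : ∀ σ, r σ *ᵥ v = M σ 0 0 • v + M σ 1 0 • w := by
    intro σ
    have h3 : U *ᵥ ![1, 0] = v := by rw [hUmul]; simp
    rw [← h3, Matrix.mulVec_mulVec, hrU, ← Matrix.mulVec_mulVec, hUmul, h3]
    simp [Matrix.mulVec, dotProduct, Fin.sum_univ_two]
  have hUe1 : ∀ σ, r σ *ᵥ w = M σ 0 1 • v + M σ 1 1 • w := by
    intro σ
    have h3 : U *ᵥ ![0, 1] = w := by rw [hUmul]; simp
    rw [← h3, Matrix.mulVec_mulVec, hrU, ← Matrix.mulVec_mulVec, hUmul, h3]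
    simp [Matrix.mulVec, dotProduct, Fin.sum_univ_two]
  by_cases hex : ∃ σ, M σ 0 1 ≠ 0
  · obtain ⟨σ₀, hσ₀⟩ := hex
    refine ⟨v, hv, fun τ => ⟨M τ 0 0, ?_⟩⟩
    rw [hUe0, (mul_eq_zero.mp (hprod σ₀ τ)).resolve_left hσ₀, zero_smul, add_zero]
  · push Not at hex
    refine ⟨w, hw, fun τ => ⟨M τ 1 1, ?_⟩⟩
    rw [hUe1, hex, zero_smul, zero_add]

end linear

local notation "Γℚ" => (AlgebraicClosure ℚ ≃ₐ[ℚ] AlgebraicClosure ℚ)

/-- `det (1 - M) = 1 - tr M + det M`. -/
theorem det_one_sub {R : Type*} [CommRing R] (M : Matrix (Fin 2) (Fin 2) R) :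
    (1 - M).det = 1 - M.trace + M.det := by
  rw [Matrix.det_fin_two, Matrix.det_fin_two, Matrix.trace_fin_two]
  simp only [Matrix.sub_apply, one_apply_eq, ne_eq, Fin.isValue, zero_ne_one, not_false_eq_true,
    one_apply_ne, one_ne_zero]
  ring

/-- **The converse of the congruence for reducible `W[p]`**: if `p ∣ ℓ + 1 - a_ℓ` for all good
primes `ℓ ≠ p`, then `W[p]` is reducible (`p` odd, any curve). -/
theorem not_irreducible_of_dvd {W : WeierstrassCurve ℤ} (hΔ : W.Δ ≠ 0) {p : ℕ} (hp : p.Prime)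
    (hp2 : p ≠ 2)
    (h : ∀ ℓ : ℕ, ℓ.Prime → W.IsGoodPrimeFor ℓ → ℓ ≠ p → (p : ℤ) ∣ (ℓ : ℤ) + 1 - W.apOfModel ℓ) :
    ¬ W.ModRepIsIrreducible p := by
  have : Fact p.Prime := ⟨hp⟩
  rw [noInvLine_range_iff p hΔ]
  intro hno
  obtain ⟨L, hL, hLr⟩ := repP_factors p hΔ
  have hsame : ∀ σ τ : Γℚ, (∀ x ∈ L, σ x = τ x) → repP p hΔ σ = repP p hΔ τ := by
    intro σ τ hστ
    have h1 : repP p hΔ (τ⁻¹ * σ) = 1 := hLr _ fun x hx => by
      rw [AlgEquiv.mul_apply, hστ x hx, AlgEquiv.aut_inv, AlgEquiv.symm_apply_apply]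
    rw [map_mul, map_inv, inv_mul_eq_one] at h1
    exact h1.symm
  -- `det (1 - ρ(σ)) = 0` for all `σ`
  have hdet : ∀ σ : Γℚ, (1 - (repP p hΔ σ : Matrix (Fin 2) (Fin 2) (ZMod p))).det = 0 := by
    refine fun σ => FrobDensity.eq_of_frobenius
      (fun σ => (1 - (repP p hΔ σ : Matrix (Fin 2) (Fin 2) (ZMod p))).det) (fun _ => 0) L
      (fun σ τ h' => by rw [hsame σ τ h']) (fun _ _ _ => rfl) ?_
      {ℓ : ℕ | (ℓ : ℤ) ∣ W.Δ ∨ ℓ = p} ?_ ?_ σ
    · intro φ k hφ
      rw [map_pow, Units.val_pow_eq_pow_val]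
      obtain ⟨X, hX⟩ : (1 - (repP p hΔ φ : Matrix (Fin 2) (Fin 2) (ZMod p))) ∣
          (1 - (repP p hΔ φ : Matrix (Fin 2) (Fin 2) (ZMod p)) ^ k) := one_sub_dvd_one_sub_pow _ k
      rw [hX, Matrix.det_mul]
      have hφ' : (1 - (repP p hΔ φ : Matrix (Fin 2) (Fin 2) (ZMod p))).det = 0 := hφ
      rw [hφ', zero_mul]
    · refine Set.Finite.union ?_ (Set.finite_singleton p)
      refine (Set.finite_le_nat W.Δ.natAbs).subset fun ℓ hℓ => ?_
      exact Nat.le_of_dvd (Int.natAbs_pos.mpr hΔ) (Int.natCast_dvd.mp hℓ)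
    · intro ℓ hℓ hS A hA φ hφ
      rw [Set.mem_ofPred_eq, not_or] at hS
      rw [det_one_sub, trace_repP_frobenius hΔ hℓ hS.1 hS.2 hA hφ,
        det_repP_frobenius hΔ hℓ hS.1 hS.2 hA hφ]
      have h1 := (ZMod.intCast_zmod_eq_zero_iff_dvd _ p).mpr (h ℓ hℓ hS.1 hS.2)
      push_cast at h1
      linear_combination h1
  obtain ⟨c, hc⟩ := exists_cycMod (p := p) (-1)
  let r : Γℚ →* Matrix (Fin 2) (Fin 2) (ZMod p) :=
    (Units.coeHom (Matrix (Fin 2) (Fin 2) (ZMod p))).comp (repP p hΔ)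
  have hr : ∀ σ, r σ = (repP p hΔ σ : Matrix (Fin 2) (Fin 2) (ZMod p)) := fun σ => rfl
  have h2 : (2 : ZMod p) ≠ 0 := by
    intro h0
    have h1 : ((2 : ℕ) : ZMod p) = 0 := by exact_mod_cast h0
    rw [ZMod.natCast_eq_zero_iff] at h1
    exact hp2 ((Nat.prime_dvd_prime_iff_eq hp Nat.prime_two).mp h1)
  obtain ⟨v, hv, hst⟩ := exists_stable_of_trace h2 r (fun σ => by
    have h1 := hdet σ
    rw [det_one_sub] at h1
    rw [hr]
    linear_combination -h1) (c := c) (by
      rw [hr, det_repP, hc]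
      simp)
  obtain ⟨g, ⟨σ, rfl⟩, hg⟩ := hno v hv
  obtain ⟨a, ha⟩ := hst σ
  exact hg a ha

end Fermat.Agent.Cor.Eleven
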