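import Mathlib

/-!
# The diophantine equation of the elliptic curves of conductor `11` with a point of order `5`

If `u, v` are coprime integers, `5 ∤ u v`, and `u v (u² - 11 u v - v²) ≠ 0` has no prime divisors
except `5` and `11`, then `(u, v)` is one of `± (1, 1)`, `± (1, -1)`, `± (11, 1)`, `± (1, -11)`.
-/

set_option autoImplicit false

namespace Fermat.Agent.Cor.Eleven

/-- An integer prime to `5` whose prime divisors are among `5` and `11` is `± 11 ^ k`. -/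
theorem natAbs_eq_pow {u : ℤ} (hu : u ≠ 0) (p : ℕ) (h : ∀ q : ℕ, q.Prime → (q : ℤ) ∣ u → q = p) :
    ∃ k : ℕ, u.natAbs = p ^ k :=
  ⟨_, Nat.eq_prime_pow_of_unique_prime_dvd (Int.natAbs_ne_zero.mpr hu) fun {d} hd hdu =>
    h d hd (Int.natCast_dvd.mpr hdu)⟩

/-- The `5`-adic valuation of `u² - 11 u v - v²` is at most `3` if `5 ∤ v`. -/
theorem not_dvd_of_not_dvd {u v : ℤ} (hv : ¬ (5 : ℤ) ∣ v) :
    ¬ (625 : ℤ) ∣ u ^ 2 - 11 * u * v - v ^ 2 := by
  rintro ⟨c, hc⟩
  have h1 : (2 * u - 11 * v) ^ 2 = 125 * v ^ 2 + 4 * (625 * c) := by rw [← hc]; ring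
  have h5 : Prime (5 : ℤ) := by norm_num
  have h2 : (5 : ℤ) ∣ 2 * u - 11 * v :=
    h5.dvd_of_dvd_pow (n := 2) ⟨25 * v ^ 2 + 4 * (125 * c), by rw [h1]; ring⟩
  obtain ⟨z, hz⟩ := h2
  rw [hz] at h1
  have h3 : z ^ 2 = 5 * v ^ 2 + 4 * (25 * c) := by linarith
  have h4 : (5 : ℤ) ∣ z := h5.dvd_of_dvd_pow (n := 2) ⟨v ^ 2 + 4 * (5 * c), by rw [h3]; ring⟩
  obtain ⟨y, rfl⟩ := h4
  exact hv (h5.dvd_of_dvd_pow (n := 2) ⟨y ^ 2 - 4 * c, by linarith⟩)

/-- The case `v = ± 1`, `u = ± 11 ^ k`, `k ≥ 1`, in terms of `x = u v`. -/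
theorem eq_eleven {x : ℤ} {k : ℕ} (hk : x.natAbs = 11 ^ (k + 1)) {b : ℕ} (hb : b < 4)
    (hD : (x ^ 2 - 11 * x - 1).natAbs = 5 ^ b) : x = 11 := by
  have hD' : (x ^ 2 - 11 * x - 1).natAbs ≤ 125 := by
    rw [hD]
    calc 5 ^ b ≤ 5 ^ 3 := Nat.pow_le_pow_right (by norm_num) (by omega)
      _ = 125 := by norm_num
  have hD2 : x ^ 2 - 11 * x - 1 ≤ 125 := by omega
  rcases Nat.eq_zero_or_pos k with rfl | hkpos
  · have h1 : x = 11 ∨ x = -11 := by omega
    rcases h1 with h1 | h1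
    · exact h1
    · rw [h1] at hD'
      norm_num at hD'
  · exfalso
    have h1 : 121 ≤ x.natAbs := by
      rw [hk]
      calc 121 = 11 ^ 2 := by norm_num
        _ ≤ 11 ^ (k + 1) := Nat.pow_le_pow_right (by norm_num) (by omega)
    have h2 : 121 ≤ x ∨ x ≤ -121 := by omega
    rcases h2 with h2 | h2 <;> nlinarith

/-- **The diophantine equation.** -/
theorem eq_of_primes {u v : ℤ} (hco : IsCoprime u v) (hu : u ≠ 0) (hv : v ≠ 0)
    (h5 : ¬ (5 : ℤ) ∣ u * v)
    (h : ∀ q : ℕ, q.Prime → (q : ℤ) ∣ u * v * (u ^ 2 - 11 * u * v - v ^ 2) → q = 5 ∨ q = 11) :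
    (u = v ∧ u ^ 2 = 1) ∨ (u = -v ∧ u ^ 2 = 1) ∨ (u = 11 * v ∧ v ^ 2 = 1) ∨
      (v = -11 * u ∧ u ^ 2 = 1) := by
  have h5u : ¬ (5 : ℤ) ∣ u := fun hd => h5 (hd.mul_right v)
  have h5v : ¬ (5 : ℤ) ∣ v := fun hd => h5 (hd.mul_left u)
  have hpu : ∀ q : ℕ, q.Prime → (q : ℤ) ∣ u → q = 11 := fun q hq hd => by
    rcases h q hq ((hd.mul_right v).mul_right _) with rfl | h1
    · exact absurd hd h5u
    · exact h1
  have hpv : ∀ q : ℕ, q.Prime → (q : ℤ) ∣ v → q = 11 := fun q hq hd => by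
    rcases h q hq ((hd.mul_left u).mul_right _) with rfl | h1
    · exact absurd hd h5v
    · exact h1
  obtain ⟨i, hi⟩ := natAbs_eq_pow hu 11 hpu
  obtain ⟨j, hj⟩ := natAbs_eq_pow hv 11 hpv
  set D := u ^ 2 - 11 * u * v - v ^ 2 with hDdef
  have hD0 : D ≠ 0 := fun h0 => not_dvd_of_not_dvd (u := u) h5v (by rw [← hDdef, h0]; exact dvd_zero _)
  have h11 : Prime (11 : ℤ) := by norm_num
  -- the quadratic factor is a power of `5` if `11 ∤ D`
  have hpow : ¬ (11 : ℤ) ∣ D → ∃ b : ℕ, b < 4 ∧ D.natAbs = 5 ^ b := by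
    intro h11D
    obtain ⟨b, hb⟩ := natAbs_eq_pow hD0 5 fun q hq hd => by
      rcases h q hq (hd.mul_left _) with h1 | rfl
      · exact h1
      · exact absurd hd h11D
    refine ⟨b, ?_, hb⟩
    by_contra hcon
    apply not_dvd_of_not_dvd (u := u) h5v
    rw [← hDdef]
    have h6 : (625 : ℕ) ∣ D.natAbs := by
      rw [hb]
      calc 625 = 5 ^ 4 := by norm_num
        _ ∣ 5 ^ b := pow_dvd_pow 5 (by omega)
    exact_mod_cast Int.natCast_dvd.mpr h6
  rcases Nat.eq_zero_or_pos i with rfl | hipos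
  · rw [pow_zero] at hi
    have hu1 : u ^ 2 = 1 := by
      rcases Int.natAbs_eq_iff.mp hi with h1 | h1 <;> rw [h1] <;> norm_num
    rcases Nat.eq_zero_or_pos j with rfl | hjpos
    · rw [pow_zero] at hj
      rcases Int.natAbs_eq_iff.mp hi with h1 | h1 <;> rcases Int.natAbs_eq_iff.mp hj with h2 | h2 <;>
        simp [h1, h2]
    · -- `u = ± 1`, `11 ∣ v`
      obtain ⟨j', rfl⟩ : ∃ j', j = j' + 1 := ⟨j - 1, by omega⟩
      have h11v : (11 : ℤ) ∣ v := by
        have : (11 : ℕ) ∣ v.natAbs := by rw [hj]; exact dvd_pow_self 11 (by omega)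
        exact_mod_cast Int.natCast_dvd.mpr this
      have h11D : ¬ (11 : ℤ) ∣ D := by
        intro hd
        have h1 : (11 : ℤ) ∣ u ^ 2 := by
          have h2 : u ^ 2 = D + v * (11 * u + v) := by rw [hDdef]; ring
          rw [h2]
          exact dvd_add hd (h11v.mul_right _)
        rw [hu1] at h1
        norm_num at h1
      obtain ⟨b, hb4, hb⟩ := hpow h11D
      have hx : (-(u * v)) = 11 := by
        refine eq_eleven (k := j') (b := b) ?_ hb4 ?_
        · rw [Int.natAbs_neg, Int.natAbs_mul, hi, hj]; norm_num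
        · rw [← hb, ← Int.natAbs_neg]
          congr 1
          rw [hDdef]
          linear_combination (-(v ^ 2 + 1)) * hu1
      right; right; right
      refine ⟨?_, hu1⟩
      linear_combination -u * hx - v * hu1
  · -- `11 ∣ u`
    obtain ⟨i', rfl⟩ : ∃ i', i = i' + 1 := ⟨i - 1, by omega⟩
    have h11u : (11 : ℤ) ∣ u := by
      have : (11 : ℕ) ∣ u.natAbs := by rw [hi]; exact dvd_pow_self 11 (by omega)
      exact_mod_cast Int.natCast_dvd.mpr this
    have hj0 : j = 0 := by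
      by_contra hj0
      have h11v : (11 : ℤ) ∣ v := by
        have : (11 : ℕ) ∣ v.natAbs := by rw [hj]; exact dvd_pow_self 11 hj0
        exact_mod_cast Int.natCast_dvd.mpr this
      exact h11.not_isUnit (hco.isUnit_of_dvd' h11u h11v)
    rw [hj0, pow_zero] at hj
    have hv1 : v ^ 2 = 1 := by
      rcases Int.natAbs_eq_iff.mp hj with h1 | h1 <;> rw [h1] <;> norm_num
    have h11D : ¬ (11 : ℤ) ∣ D := by
      intro hd
      have h1 : (11 : ℤ) ∣ v ^ 2 := by
        have h2 : v ^ 2 = u * (u - 11 * v) - D := by rw [hDdef]; ring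
        rw [h2]
        exact dvd_sub (h11u.mul_right _) hd
      rw [hv1] at h1
      norm_num at h1
    obtain ⟨b, hb4, hb⟩ := hpow h11D
    have hx : u * v = 11 := by
      refine eq_eleven (k := i') (b := b) ?_ hb4 ?_
      · rw [Int.natAbs_mul, hi, hj, mul_one]
      · rw [← hb]
        congr 1
        rw [hDdef]
        linear_combination (u ^ 2 + 1) * hv1
    right; right; left
    refine ⟨?_, hv1⟩
    linear_combination v * hx - u * hv1

end Fermat.Agent.Cor.Eleven
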