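import Mathlib
import Fermat.Prelude.Def_FLTPrelim_Modularity

/-!
# The point `(0, 0)` of order `5` on `y² + y = x³ - x²`

Over every field, `2 (0, 0) = (1, -1)` and `3 (0, 0) = (1, 0) = -(1, -1)`. Hence `5` divides the
number of (nonsingular) points over every finite field.
-/

set_option autoImplicit false

open WeierstrassCurve WeierstrassCurve.Affine

namespace Fermat.Agent.Cor.Eleven

section Field

variable (F : Type*) [Field F]

/-- The curve `y² + y = x³ - x²` over a field. -/
def VF : WeierstrassCurve F := ⟨0, -1, 1, 0, 0⟩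

theorem VF_nonsingular_zero : (VF F).toAffine.Nonsingular 0 0 := by
  rw [Affine.nonsingular_iff, Affine.equation_iff]
  simp [VF]

theorem VF_nonsingular_one : (VF F).toAffine.Nonsingular 1 (-1) := by
  rw [Affine.nonsingular_iff, Affine.equation_iff]
  simp [VF]

variable [DecidableEq F]

/-- The point `(0, 0)`. -/
def ptP : (VF F).toAffine.Point := Point.some 0 0 (VF_nonsingular_zero F)

/-- The point `(1, -1)`. -/
def ptQ : (VF F).toAffine.Point := Point.some 1 (-1) (VF_nonsingular_one F)

theorem ptP_add_ptP : ptP F + ptP F = ptQ F := by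
  have hne : (0 : F) ≠ (VF F).toAffine.negY 0 0 := by
    simp [VF, Affine.negY]
  have hs : (VF F).toAffine.slope 0 0 0 0 = 0 := by
    rw [slope_of_Y_ne rfl hne]
    simp [VF, Affine.negY]
  unfold ptP ptQ
  rw [Point.add_self_of_Y_ne hne, Point.some.injEq, hs]
  constructor
  · simp [VF, Affine.addX]
  · simp [VF, Affine.addY, Affine.negAddY, Affine.addX, Affine.negY]

theorem ptQ_add_ptP : ptQ F + ptP F = -ptQ F := by
  have hne : (1 : F) ≠ 0 := one_ne_zero
  have hs : (VF F).toAffine.slope 1 0 (-1) 0 = -1 := by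
    rw [slope_of_X_ne hne]
    simp
  unfold ptP ptQ
  rw [Point.add_of_X_ne hne, Point.neg_some, Point.some.injEq, hs]
  constructor
  · simp only [VF, Affine.addX]; ring
  · simp only [VF, Affine.addY, Affine.negAddY, Affine.addX, Affine.negY]; ring

theorem five_nsmul_ptP : 5 • ptP F = 0 := by
  have h1 := ptP_add_ptP F
  have h2 := ptQ_add_ptP F
  have e : 5 • ptP F = (ptP F + ptP F) + ((ptP F + ptP F) + ptP F) := by abel
  rw [e, h1, h2, add_neg_cancel]

omit [DecidableEq F] in
theorem ptP_ne_zero : ptP F ≠ 0 := Point.some_ne_zero _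

theorem five_dvd_card [Finite F] : 5 ∣ Nat.card (VF F).toAffine.Point := by
  have hfin : Finite (VF F).toAffine.Point := inferInstance
  have : Fact (Nat.Prime 5) := ⟨by norm_num⟩
  have h1 : addOrderOf (ptP F) = 5 := addOrderOf_eq_prime (five_nsmul_ptP F) (ptP_ne_zero F)
  rw [← h1]
  exact addOrderOf_dvd_natCard _

end Field

/-- **`5` divides `#(y² + y = x³ - x²)(𝔽_p)`** for every prime `p` (nonsingular points at
`p = 11`). -/
theorem five_dvd {p : ℕ} (hp : p.Prime) :
    (5 : ℤ) ∣ p + 1 - (⟨0, -1, 1, 0, 0⟩ : WeierstrassCurve ℤ).apOfModel p := by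
  have : Fact p.Prime := ⟨hp⟩
  have h1 : (⟨0, -1, 1, 0, 0⟩ : WeierstrassCurve ℤ).reductionMod p = VF (ZMod p) := by
    simp only [WeierstrassCurve.reductionMod, WeierstrassCurve.map, VF]
    simp
  have h2 := five_dvd_card (ZMod p)
  rw [apOfModel, h1, traceOfFrobenius, WeierstrassCurve.card, Nat.card_zmod]
  have h3 : (p : ℤ) + 1 - ((p : ℤ) + 1 - (Nat.card (VF (ZMod p)).toAffine.Point : ℤ)) =
      (Nat.card (VF (ZMod p)).toAffine.Point : ℤ) := by ring
  rw [h3]
  exact_mod_cast h2

end Fermat.Agent.Cor.Eleven
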