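import Mathlib
import Fermat.Prelude.Def_WeierstrassCurve_ModularityProps

/-!
# Curves with a point of order five, and the two curves `X₁(11)` and `X₀(11)`

`T u v : y² + (u + v) x y + u² v y = x³ + u v x²` is the curve with the point `(0, 0)` of order
five in Tate's normal form, with integral parameters.
-/

set_option autoImplicit false

namespace Fermat.Agent.Cor.Eleven

open WeierstrassCurve

/-- Tate's normal form for a point of order five. -/
def T (u v : ℤ) : WeierstrassCurve ℤ := ⟨u + v, u * v, u ^ 2 * v, 0, 0⟩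

/-- `X₀(11)`: `y² + y = x³ - x² - 10 x - 20`. -/
def A1 : WeierstrassCurve ℤ := ⟨0, -1, 1, -10, -20⟩

/-- `X₁(11)`: `y² + y = x³ - x²`. -/
def A3 : WeierstrassCurve ℤ := ⟨0, -1, 1, 0, 0⟩

section

variable (u v : ℤ)

@[simp] lemma T_a₁ : (T u v).a₁ = u + v := rfl
@[simp] lemma T_a₂ : (T u v).a₂ = u * v := rfl
@[simp] lemma T_a₃ : (T u v).a₃ = u ^ 2 * v := rfl
@[simp] lemma T_a₄ : (T u v).a₄ = 0 := rfl
@[simp] lemma T_a₆ : (T u v).a₆ = 0 := rfl

theorem T_Δ : (T u v).Δ = u ^ 5 * v ^ 5 * (u ^ 2 - 11 * u * v - v ^ 2) := by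
  simp only [WeierstrassCurve.Δ, WeierstrassCurve.b₂, WeierstrassCurve.b₄, WeierstrassCurve.b₆,
    WeierstrassCurve.b₈, T_a₁, T_a₂, T_a₃, T_a₄, T_a₆]
  ring

theorem T_c₄ : (T u v).c₄ =
    u ^ 4 - 12 * u ^ 3 * v + 14 * u ^ 2 * v ^ 2 + 12 * u * v ^ 3 + v ^ 4 := by
  simp only [WeierstrassCurve.c₄, WeierstrassCurve.b₂, WeierstrassCurve.b₄, T_a₁, T_a₂, T_a₃,
    T_a₄]
  ring

theorem T_Δ_ne_zero {u v : ℤ} (hu : u ≠ 0) (hv : v ≠ 0) : (T u v).Δ ≠ 0 := by
  rw [T_Δ]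
  refine mul_ne_zero (mul_ne_zero (pow_ne_zero _ hu) (pow_ne_zero _ hv)) fun h => ?_
  -- `125` is not a square
  have h1 : (2 * u - 11 * v) ^ 2 = 125 * v ^ 2 := by linear_combination 4 * h
  have h2 : v ∣ 2 * u - 11 * v := by
    have h3 : v ^ 2 ∣ (2 * u - 11 * v) ^ 2 := ⟨125, by rw [h1]; ring⟩
    exact (Int.pow_dvd_pow_iff two_ne_zero).mp h3
  obtain ⟨k, hk⟩ := h2
  rw [hk, mul_pow, mul_comm] at h1
  have h4 : k ^ 2 = 125 := mul_right_cancel₀ (pow_ne_zero 2 hv) h1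
  have h5 : k ≤ 11 := by nlinarith
  have h6 : -11 ≤ k := by nlinarith
  interval_cases k <;> omega

end

theorem A1_Δ : A1.Δ = -11 ^ 5 := by
  norm_num [WeierstrassCurve.Δ, WeierstrassCurve.b₂, WeierstrassCurve.b₄, WeierstrassCurve.b₆,
    WeierstrassCurve.b₈, A1]

theorem A3_Δ : A3.Δ = -11 := by
  norm_num [WeierstrassCurve.Δ, WeierstrassCurve.b₂, WeierstrassCurve.b₄, WeierstrassCurve.b₆,
    WeierstrassCurve.b₈, A3]

theorem A1_c₄ : A1.c₄ = 496 := by
  norm_num [WeierstrassCurve.c₄, WeierstrassCurve.b₂, WeierstrassCurve.b₄, A1]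

theorem A3_c₄ : A3.c₄ = 16 := by
  norm_num [WeierstrassCurve.c₄, WeierstrassCurve.b₂, WeierstrassCurve.b₄, A3]

theorem prime_dvd_A1_Δ_iff {q : ℕ} (hq : q.Prime) : (q : ℤ) ∣ A1.Δ ↔ q = 11 := by
  rw [A1_Δ, dvd_neg]
  constructor
  · intro h
    have h1 : q ∣ 11 ^ 5 := by exact_mod_cast h
    exact (Nat.prime_dvd_prime_iff_eq hq (by norm_num)).mp (hq.dvd_of_dvd_pow h1)
  · rintro rfl
    norm_num

theorem prime_dvd_A3_Δ_iff {q : ℕ} (hq : q.Prime) : (q : ℤ) ∣ A3.Δ ↔ q = 11 := by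
  rw [A3_Δ, dvd_neg]
  constructor
  · intro h
    have h1 : q ∣ 11 := by exact_mod_cast h
    exact (Nat.prime_dvd_prime_iff_eq hq (by norm_num)).mp h1
  · rintro rfl
    norm_num

theorem A1_Δ_ne_zero : A1.Δ ≠ 0 := by rw [A1_Δ]; norm_num

theorem A3_Δ_ne_zero : A3.Δ ≠ 0 := by rw [A3_Δ]; norm_num

theorem isSemistableModel_A1 : A1.IsSemistableModel := by
  intro q hq h
  rw [prime_dvd_A1_Δ_iff hq] at h
  subst h
  rw [A1_c₄]
  norm_num

theorem isSemistableModel_A3 : A3.IsSemistableModel := by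
  intro q hq h
  rw [prime_dvd_A3_Δ_iff hq] at h
  subst h
  rw [A3_c₄]
  norm_num

/-- an integral change of variables with `u = 1`. -/
theorem change_of {W A : WeierstrassCurve ℤ} (r s t : ℤ) (h₁ : W.a₁ + 2 * s = A.a₁)
    (h₂ : W.a₂ - s * W.a₁ + 3 * r - s ^ 2 = A.a₂) (h₃ : W.a₃ + r * W.a₁ + 2 * t = A.a₃)
    (h₄ : W.a₄ - s * W.a₃ + 2 * r * W.a₂ - (t + r * s) * W.a₁ + 3 * r ^ 2 - 2 * s * t = A.a₄)
    (h₆ : W.a₆ + r * W.a₄ + r ^ 2 * W.a₂ + r ^ 3 - t * W.a₃ - t ^ 2 - r * t * W.a₁ = A.a₆) :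
    (⟨1, r, s, t⟩ : VariableChange ℚ) • W.map (Int.castRingHom ℚ) =
      A.map (Int.castRingHom ℚ) := by
  ext
  · rw [variableChange_a₁]
    simp only [WeierstrassCurve.map_a₁, eq_intCast, ← h₁]
    simp
  · rw [variableChange_a₂]
    simp only [WeierstrassCurve.map_a₁, WeierstrassCurve.map_a₂, eq_intCast, ← h₂]
    simp
  · rw [variableChange_a₃]
    simp only [WeierstrassCurve.map_a₁, WeierstrassCurve.map_a₃, eq_intCast, ← h₃]
    simp
  · rw [variableChange_a₄]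
    simp only [WeierstrassCurve.map_a₁, WeierstrassCurve.map_a₂, WeierstrassCurve.map_a₃,
      WeierstrassCurve.map_a₄, eq_intCast, ← h₄]
    simp
  · rw [variableChange_a₆]
    simp only [WeierstrassCurve.map_a₁, WeierstrassCurve.map_a₂, WeierstrassCurve.map_a₃,
      WeierstrassCurve.map_a₄, WeierstrassCurve.map_a₆, eq_intCast, ← h₆]
    simp

/-- The eight pairs of parameters give `X₁(11)` or `X₀(11)`. -/
theorem exists_change {u v : ℤ} (h : (u = v ∧ u ^ 2 = 1) ∨ (u = -v ∧ u ^ 2 = 1) ∨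
    (u = 11 * v ∧ v ^ 2 = 1) ∨ (v = -11 * u ∧ u ^ 2 = 1)) :
    ∃ A : WeierstrassCurve ℤ, (A = A1 ∨ A = A3) ∧ ∃ C : VariableChange ℚ,
      C • (T u v).map (Int.castRingHom ℚ) = A.map (Int.castRingHom ℚ) := by
  rcases h with ⟨h, h'⟩ | ⟨h, h'⟩ | ⟨h, h'⟩ | ⟨h, h'⟩
  · rcases _root_.sq_eq_one_iff.mp h' with h' | h'
    · obtain rfl : v = 1 := by omega
      subst h'
      exact ⟨A3, Or.inr rfl, _, change_of (-1) (-1) 1 (by norm_num [A3]) (by norm_num [A3])
        (by norm_num [A3]) (by norm_num [A3]) (by norm_num [A3])⟩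
    · obtain rfl : v = -1 := by omega
      subst h'
      exact ⟨A3, Or.inr rfl, _, change_of (-1) 1 0 (by norm_num [A3]) (by norm_num [A3])
        (by norm_num [A3]) (by norm_num [A3]) (by norm_num [A3])⟩
  · rcases _root_.sq_eq_one_iff.mp h' with h' | h'
    · obtain rfl : v = -1 := by omega
      subst h'
      exact ⟨A3, Or.inr rfl, _, change_of 0 0 1 (by norm_num [A3]) (by norm_num [A3])
        (by norm_num [A3]) (by norm_num [A3]) (by norm_num [A3])⟩
    · obtain rfl : v = 1 := by omega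
      subst h'
      exact ⟨A3, Or.inr rfl, _, change_of 0 0 0 (by norm_num [A3]) (by norm_num [A3])
        (by norm_num [A3]) (by norm_num [A3]) (by norm_num [A3])⟩
  · rcases _root_.sq_eq_one_iff.mp h' with h' | h'
    · obtain rfl : u = 11 := by omega
      subst h'
      exact ⟨A1, Or.inl rfl, _, change_of (-16) (-6) 36 (by norm_num [A1]) (by norm_num [A1])
        (by norm_num [A1]) (by norm_num [A1]) (by norm_num [A1])⟩
    · obtain rfl : u = -11 := by omega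
      subst h'
      exact ⟨A1, Or.inl rfl, _, change_of (-16) 6 (-35) (by norm_num [A1]) (by norm_num [A1])
        (by norm_num [A1]) (by norm_num [A1]) (by norm_num [A1])⟩
  · rcases _root_.sq_eq_one_iff.mp h' with h' | h'
    · obtain rfl : v = -11 := by omega
      subst h'
      exact ⟨A1, Or.inl rfl, _, change_of (-5) 5 (-19) (by norm_num [A1]) (by norm_num [A1])
        (by norm_num [A1]) (by norm_num [A1]) (by norm_num [A1])⟩
    · obtain rfl : v = 11 := by omega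
      subst h'
      exact ⟨A1, Or.inl rfl, _, change_of (-5) (-5) 20 (by norm_num [A1]) (by norm_num [A1])
        (by norm_num [A1]) (by norm_num [A1]) (by norm_num [A1])⟩

end Fermat.Agent.Cor.Eleven
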