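import Fermat.Agent.Corollaries.Eleven.Curves
import Fermat.Agent.Corollaries.Mazur.Defs
import Fermat.Agent.S12.AtP

/-!
# The normal form at a rational point of order five
-/

set_option autoImplicit false

namespace Fermat.Agent.Cor.Eleven

open WeierstrassCurve Polynomial

/-- a rational root of a monic quadratic polynomial with integral coefficients is an integer. -/
theorem int_of_quad {r : ℚ} {a b : ℤ} (h : r ^ 2 - a * r + b = 0) : ∃ n : ℤ, (n : ℚ) = r := by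
  have h1 : IsIntegral ℤ r := by
    refine ⟨X ^ 2 - C a * X + C b, ?_, ?_⟩
    · monicity!
    · rw [eval₂_add, eval₂_sub, eval₂_mul, eval₂_X_pow, eval₂_C, eval₂_C, eval₂_X]
      simpa using h
  obtain ⟨n, hn⟩ := IsIntegrallyClosed.isIntegral_iff.mp h1
  exact ⟨n, by simpa using hn⟩

theorem preΨ'_five_eval (W : WeierstrassCurve ℤ) (h4 : W.a₄ = 0) (h6 : W.a₆ = 0) :
    (W.preΨ' 5).eval 0 = W.a₃ ^ 6 * (W.a₃ * (W.a₁ * W.a₂ - W.a₃) - W.a₂ ^ 3) := by
  have h := W.preΨ'_odd 0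
  norm_num at h
  rw [h]
  simp only [eval_sub, eval_mul, eval_pow, preΨ₄, Ψ₃, Ψ₂Sq]
  simp [WeierstrassCurve.b₂, WeierstrassCurve.b₄, WeierstrassCurve.b₆, WeierstrassCurve.b₈, h4, h6]
  ring

/-- **The normal form at a rational point of order five.** -/
theorem exists_T {W : WeierstrassCurve ℤ} {Q : Mazur.Pt W} (h : Mazur.Normal 5 W Q) :
    ∃ u v : ℤ, IsCoprime u v ∧ u ≠ 0 ∧ v ≠ 0 ∧ W = T u v := by
  obtain ⟨hns, hQ⟩ := h.hQ
  have h5 : (5 : ℕ) • Affine.Point.some 0 0 hns = 0 := by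
    rw [← hQ, ← h.ord]
    exact addOrderOf_nsmul_eq_zero Q
  have h1 : aeval (0 : ℚ) (W.preΨ' 5) = 0 :=
    S12val.aeval_preΨ'_eq_zero (by decide) (r := 0) (_root_.map_zero _) h5
  have h2 : (W.preΨ' 5).eval 0 = 0 := by
    have h3 : aeval (0 : ℚ) (W.preΨ' 5) = (((W.preΨ' 5).eval 0 : ℤ) : ℚ) := by
      rw [← coeff_zero_eq_eval_zero, ← coeff_zero_eq_aeval_zero']
      simp
    rw [h3] at h1
    exact_mod_cast h1
  rw [preΨ'_five_eval W h.h4 h.h6] at h2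
  have ha3 : W.a₃ ≠ 0 := by
    intro h0
    apply h.hΔ
    simp [WeierstrassCurve.Δ, WeierstrassCurve.b₂, WeierstrassCurve.b₄, WeierstrassCurve.b₆,
      WeierstrassCurve.b₈, h.h4, h.h6, h0]
  have h3 : W.a₃ * (W.a₁ * W.a₂ - W.a₃) - W.a₂ ^ 3 = 0 :=
    (mul_eq_zero.mp h2).resolve_left (pow_ne_zero _ ha3)
  have ha2 : W.a₂ ≠ 0 := by
    intro h0
    rw [h0] at h3
    apply ha3
    have : W.a₃ ^ 2 = 0 := by linear_combination -h3
    exact pow_eq_zero_iff two_ne_zero |>.mp this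
  have ha2' : (W.a₂ : ℚ) ≠ 0 := by exact_mod_cast ha2
  have h3' : (W.a₃ : ℚ) * (W.a₁ * W.a₂ - W.a₃) - W.a₂ ^ 3 = 0 := by exact_mod_cast h3
  obtain ⟨t, ht⟩ := int_of_quad (r := (W.a₃ : ℚ) / W.a₂) (a := W.a₁) (b := W.a₂) (by
    field_simp
    linear_combination -h3')
  have ht3 : W.a₃ = t * W.a₂ := by
    have : (W.a₃ : ℚ) = t * W.a₂ := by rw [ht]; field_simp
    exact_mod_cast this
  have ht2 : W.a₂ = t * (W.a₁ - t) := by
    rw [ht3] at h3
    apply mul_left_cancel₀ (pow_ne_zero 2 ha2)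
    linear_combination -h3
  have ht0 : t ≠ 0 := by
    rintro rfl
    exact ha3 (by rw [ht3]; ring)
  have hv0 : W.a₁ - t ≠ 0 := by
    intro h0
    exact ha2 (by rw [ht2, h0]; ring)
  refine ⟨t, W.a₁ - t, ?_, ht0, hv0, ?_⟩
  · rw [Int.isCoprime_iff_gcd_eq_one]
    by_contra hg
    obtain ⟨ℓ, hℓ, hd⟩ := Nat.exists_prime_and_dvd hg
    have h6 : (ℓ : ℤ) ∣ t := (Int.natCast_dvd_natCast.mpr hd).trans (Int.gcd_dvd_left ..)
    have h7 : (ℓ : ℤ) ∣ W.a₁ - t := (Int.natCast_dvd_natCast.mpr hd).trans (Int.gcd_dvd_right ..)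
    refine h.min ℓ hℓ ⟨?_, ?_, ?_⟩
    · have := dvd_add h7 h6
      rwa [sub_add_cancel] at this
    · rw [ht2, pow_two]
      exact mul_dvd_mul h6 h7
    · rw [ht3, ht2, pow_succ, mul_comm, pow_two]
      exact mul_dvd_mul h6 (mul_dvd_mul h6 h7)
  · ext
    · simp
    · rw [T_a₂]; exact ht2
    · rw [T_a₃, ht3]
      conv_lhs => rw [ht2]
      ring
    · exact h.h4
    · exact h.h6

end Fermat.Agent.Cor.Eleven
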