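import Fermat.Agent.Corollaries.Mazur.Normal

/-!
# The normal form at a rational point of prime order, with the change of variables

`Mazur.exists_normal` (helper43) gives the normal form `W` of a pair `(E, P)` and an equivariant
isomorphism of the groups of points; here also the change of variables over `ℚ`.
-/

set_option autoImplicit false

noncomputable section

namespace Fermat.Agent.Cor.Eleven

open WeierstrassCurve WeierstrassCurve.Affine
open Fermat.Agent.Cor.K1 Fermat.Agent.Cor.Mazur

local notation "ℚbar" => AlgebraicClosure ℚ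

/-- **The normal form at a rational point of prime order `p ≥ 3`**, with the change of variables
(`Mazur.exists_normal` without it). -/
theorem exists_normal_change (E : WeierstrassCurve ℚ) [E.IsElliptic] {p : ℕ} (hp : p.Prime)
    (hp2 : p ≠ 2) (P : Pts E) (hP : addOrderOf P = p) (hfix : ∀ σ : Gam, σ • P = P) :
    ∃ (W : WeierstrassCurve ℤ) (C : VariableChange ℚ) (e : Pts E ≃+ Mazur.Pt W),
      C • E = W.map (Int.castRingHom ℚ) ∧
      (∀ (σ : Gam) (x : Pts E), e (σ • x) = σ • e x) ∧ Mazur.Normal p W (e P) := by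
  have hΔ : E.Δ ≠ 0 := E.isUnit_Δ.ne_zero
  rcases P with _ | ⟨x, y, hxy⟩
  · exfalso
    have h1 : addOrderOf (0 : Pts E) = p := hP
    rw [addOrderOf_zero] at h1
    exact hp.one_lt.ne h1
  -- the coordinates are rational
  have hσ : ∀ σ : Gam, σ x = x ∧ σ y = y := by
    intro σ
    have h1 := hfix σ
    rw [Point.algEquiv_smul_def, Point.map_some, Point.some.injEq] at h1
    exact h1
  obtain ⟨r, hr⟩ := S13five.exists_rat_of_fixed fun σ => (hσ σ).1
  obtain ⟨t, ht⟩ := S13five.exists_rat_of_fixed fun σ => (hσ σ).2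
  have heq : E.toAffine.Equation r t := by
    have h1 := hxy.1
    rw [← hr, ← ht] at h1
    exact (Affine.map_equation (W := E.toAffine) (f := algebraMap ℚ ℚbar)
      (algebraMap ℚ ℚbar).injective r t).mp h1
  have h2 : 2 * t + E.a₁ * r + E.a₃ ≠ 0 := by
    intro h0
    have h1 : (2 : ℕ) • (Point.some x y hxy : Pts E) = 0 := by
      rw [two_nsmul, Point.add_of_Y_eq rfl]
      rw [Affine.negY, ← hr, ← ht]
      have h3 : algebraMap ℚ ℚbar (2 * t + E.a₁ * r + E.a₃) = 0 := by rw [h0, map_zero]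
      have h4 : (E⁄ℚbar).a₁ = algebraMap ℚ ℚbar E.a₁ := rfl
      have h5 : (E⁄ℚbar).a₃ = algebraMap ℚ ℚbar E.a₃ := rfl
      rw [h4, h5]
      simp only [map_add, map_mul, map_ofNat] at h3
      linear_combination h3
    have h3 := addOrderOf_dvd_of_nsmul_eq_zero h1
    rw [hP] at h3
    exact hp2 ((Nat.prime_dvd_prime_iff_eq hp Nat.prime_two).mp h3)
  obtain ⟨W, hW, hmin⟩ := exists_isForm_min hΔ heq h2
  have hΔW := hW.Δ_ne_zero hΔ
  obtain ⟨h4, h6, C, hCr, hCt, hC⟩ := hW
  obtain ⟨e, he, hc⟩ := exists_equiv_coord hΔ hC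
  -- the origin
  have h00 : ((W.map (Int.castRingHom ℚ))⁄ℚbar).Nonsingular 0 0 := by
    have hΔ' : ((W.map (Int.castRingHom ℚ))⁄ℚbar : WeierstrassCurve ℚbar).Δ ≠ 0 := by
      rw [show ((W.map (Int.castRingHom ℚ))⁄ℚbar : WeierstrassCurve ℚbar) =
        (W.map (Int.castRingHom ℚ)).map (algebraMap ℚ ℚbar) from rfl, WeierstrassCurve.map_Δ,
        WeierstrassCurve.map_Δ]
      simpa using hΔW
    refine (equation_iff_nonsingular_of_Δ_ne_zero hΔ').mp ?_
    rw [equation_zero]
    change algebraMap ℚ ℚbar (Int.castRingHom ℚ W.a₆) = 0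
    rw [h6, map_zero, map_zero]
  obtain ⟨h', h0⟩ := hc 0 0 h00
  have hP0 : e (Point.some 0 0 h00) = Point.some x y hxy := by
    rw [h0, Point.some.injEq, hCr, hCt, hr, ht]
    constructor <;> ring
  have hP1 : e.symm (Point.some x y hxy) = Point.some 0 0 h00 := by
    rw [← hP0, AddEquiv.symm_apply_apply]
  refine ⟨W, C, e.symm, hC, fun σ z => ?_, hΔW, h4, h6, ⟨h00, hP1⟩, ?_, fun σ => ?_, hmin⟩
  · apply e.injective
    rw [he, AddEquiv.apply_symm_apply, AddEquiv.apply_symm_apply]
  · rw [← hP]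
    exact addOrderOf_injective e.symm.toAddMonoidHom e.symm.injective _
  · apply e.injective
    rw [he, AddEquiv.apply_symm_apply]
    exact hfix σ

end Fermat.Agent.Cor.Eleven
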