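import Fermat.Agent.Corollaries.Surj.Inertia

/-!
# Multiplicative reduction along an isogeny

Let `φ : W(ℚ̄) → W'(ℚ̄)` be a surjective Galois-equivariant homomorphism whose kernel is killed by
`n ≠ 0`.  If `W` has good reduction at `q`, then `W'` does not have multiplicative reduction at `q`:
for every prime `p > n`, `p ≠ q`, the inertia group at `q` acts trivially on `W[p] ≅ W'[p]`, while
its image in `Aut W'[p]` contains an element of order `p` if `W'` is multiplicative at `q` and `p`
does not divide the valuation of the discriminant.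
-/

set_option autoImplicit false

namespace Fermat.Agent.Cor.Eleven

open WeierstrassCurve WeierstrassCurve.Affine WeierstrassCurve.Affine.Point
open Fermat.Agent.ECRed FermatAgent.ECVal

/-- A point killed by `p` is the image of a point killed by `p` (`p` prime to `n`, the kernel
killed by `n`). -/
theorem exists_preimage {A B : Type*} [AddCommGroup A] [AddCommGroup B] (φ : A →+ B)
    (hs : Function.Surjective φ) {n p : ℕ} (hker : ∀ x, φ x = 0 → n • x = 0)
    (hco : Nat.Coprime n p) {y : B} (hy : p • y = 0) : ∃ x : A, φ x = y ∧ p • x = 0 := by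
  obtain ⟨z, hz⟩ := hs y
  have h1 : (n : ℤ) • ((p : ℤ) • z) = 0 := by
    rw [natCast_zsmul, natCast_zsmul]
    exact hker _ (by rw [map_nsmul, hz, hy])
  -- `a n + b p = 1`
  have hco' : IsCoprime (n : ℤ) (p : ℤ) := Nat.isCoprime_iff_coprime.mpr hco
  obtain ⟨a, b, hab⟩ := hco'
  have hy' : (p : ℤ) • y = 0 := by rw [natCast_zsmul]; exact hy
  refine ⟨(a * n) • z, ?_, ?_⟩
  · rw [map_zsmul, hz]
    have h2 : (a * n) • y = (a * n + b * p) • y := by
      rw [add_smul, mul_smul b, hy', smul_zero, add_zero]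
    rw [h2, hab, one_smul]
  · rw [← natCast_zsmul, ← mul_smul, show (p : ℤ) * (a * n) = a * (n * p) by ring, mul_smul,
      mul_smul, h1, smul_zero]

/-- **Good reduction of `W` excludes multiplicative reduction of an isogenous `W'`.** -/
theorem dvd_c₄_of_good {W W' : WeierstrassCurve ℤ} (hΔ' : W'.Δ ≠ 0)
    (φ : (EQ W).Point →+ (EQ W').Point) (hφs : Function.Surjective φ)
    (hφe : ∀ (σ : AlgebraicClosure ℚ ≃ₐ[ℚ] AlgebraicClosure ℚ) (x : (EQ W).Point),
      φ (σ • x) = σ • φ x) {n : ℕ} (hn : n ≠ 0) (hker : ∀ x, φ x = 0 → n • x = 0) {q : ℕ}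
    (hq : q.Prime) (hgood : ¬ (q : ℤ) ∣ W.Δ) (hbad : (q : ℤ) ∣ W'.Δ) : (q : ℤ) ∣ W'.c₄ := by
  classical
  by_contra hc₄
  have : Fact q.Prime := ⟨hq⟩
  obtain ⟨p, hpge, hp⟩ := Nat.exists_infinite_primes (n + q + padicValInt q W'.Δ + 3)
  have hp2 : p ≠ 2 := by omega
  have hqp : q ≠ p := by omega
  have hv : ¬ p ∣ padicValInt q W'.Δ := by
    intro hd
    have h1 : 0 < padicValInt q W'.Δ := by
      rw [Nat.pos_iff_ne_zero]
      intro h0
      rcases (padicValInt.eq_zero_iff).mp h0 with h2 | h2 | h2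
      · exact hq.one_lt.ne' h2
      · exact hΔ' h2
      · exact h2 hbad
    have h2 := Nat.le_of_dvd h1 hd
    omega
  have hco : Nat.Coprime n p := by
    refine (Nat.Coprime.symm ?_)
    rw [Nat.Prime.coprime_iff_not_dvd hp]
    intro hd
    have := Nat.le_of_dvd (Nat.pos_of_ne_zero hn) hd
    omega
  obtain ⟨A, hA⟩ := Frob.exists_liesOverPrime q hq
  obtain ⟨σ, hσ, hord⟩ := exists_inertia_order (W := W') ⟨hq, hbad, hc₄, hΔ'⟩ hp hp2 hv hA
  have hΔk : (Ek W A).Δ ≠ 0 := by
    have h1 : ¬ A.valuation ((W.Δ : ℤ) : AlgebraicClosure ℚ) < 1 := by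
      rw [val_intCast_eq_one A.valuation hq (lt_one_of_liesOver hA) hgood]
      exact lt_irrefl _
    intro h0
    apply h1
    have h2 := (redEk W A).Δ
    rw [h0, EQ_Δ] at h2
    exact (isPlace_valuationSubring A).lt_one h2
  have h1 : MulAction.toPermHom (AlgebraicClosure ℚ ≃ₐ[ℚ] AlgebraicClosure ℚ)
      (Submodule.torsionBy ℤ (EQ W').Point (p : ℤ)) σ = 1 := by
    refine Equiv.ext fun y => Subtype.ext ?_
    have hy : p • (y : (EQ W').Point) = 0 := by
      have h2 := (Submodule.mem_torsionBy_iff _ _).mp y.2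
      rw [natCast_zsmul] at h2
      exact h2
    obtain ⟨x, hx, hpx⟩ := exists_preimage φ hφs hker hco hy
    have h3 : σ • x = x := smul_eq_of_torsion_of_good (W' := W.map (Int.castRingHom ℚ)) hσ
      (by
        have := Fermat.Agent.Tate.val_prime_eq_one p hp hq hqp hA 1
        rwa [pow_one] at this) (redEk W A) hΔk hpx
    change σ • (y : (EQ W').Point) = y
    rw [← hx, ← hφe, h3]
  rw [h1, orderOf_one] at hord
  exact hp.one_lt.ne hord

end Fermat.Agent.Cor.Eleven
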