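import Fermat.Agent.Corollaries.CondLevel
import Fermat.Agent.Corollaries.K1.QuotientsH2
import Fermat.Agent.Corollaries.Mazur.Chars
import Fermat.Agent.Corollaries.Eleven.Dioph
import Fermat.Agent.Corollaries.Eleven.Curves
import Fermat.Agent.Corollaries.Eleven.Points
import Fermat.Agent.Corollaries.Eleven.Reducible
import Fermat.Agent.Corollaries.Eleven.Transfer
import Fermat.Agent.Corollaries.Eleven.Normal5
import Fermat.Agent.Corollaries.Eleven.NormalChange

/-!
# The elliptic curves of conductor `11`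

`A3 : y² + y = x³ - x²` and `A1 : y² + y = x³ - x² - 10 x - 20`.

* `exists_change_of_point`: a semistable curve whose only bad prime is `11` and which has a rational
  point of order `5` is isomorphic to `A1` or to `A3` over `ℚ`;
* `conductor_eleven`: every semistable curve whose only bad prime is `11` is isomorphic to `A1` or
  `A3` over `ℚ` or has a rational isogeny of degree `5` to `A1` or `A3`.
-/

set_option autoImplicit false

noncomputable section

namespace Fermat.Agent.Cor.Eleven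

open WeierstrassCurve WeierstrassCurve.Affine WeierstrassCurve.Affine.Point
open Fermat.Agent.Cor.K1

/-! ### Traces of Frobenius -/

theorem eleven_mem_oneLevels : 11 ∈ oneLevels := by decide

/-- **The traces of Frobenius of a semistable curve with the only bad prime `11`.** -/
theorem apOfModel_eq {W : WeierstrassCurve ℤ} (hΔ : W.Δ ≠ 0) (hW : W.IsSemistableModel)
    (h11 : ∀ q : ℕ, q.Prime → ((q : ℤ) ∣ W.Δ ↔ q = 11)) {p : ℕ} (hp : p.Prime) (hp11 : p ≠ 11) :
    W.apOfModel p = A3.apOfModel p := by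
  have hN : ∀ A : WeierstrassCurve ℤ, A.Δ ≠ 0 →
      (∀ q : ℕ, q.Prime → ((q : ℤ) ∣ A.Δ ↔ q = 11)) → 11 = A.conductorLevel := by
    intro A hA h
    refine eq_conductorLevel hA (Nat.prime_eleven).squarefree fun q hq => ?_
    rw [h q hq, Nat.prime_dvd_prime_iff_eq hq Nat.prime_eleven]
  have h1 := hN W hΔ h11
  have h2 := hN A3 A3_Δ_ne_zero fun q hq => prime_dvd_A3_Δ_iff hq
  refine apOfModel_eq_of_conductorLevel_eq A3_Δ_ne_zero isSemistableModel_A3 hΔ hW
    (by rw [← h1, ← h2]) (by rw [← h2]; exact eleven_mem_oneLevels) hp ?_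
  exact fun hd => hp11 ((prime_dvd_A3_Δ_iff hp).mp hd)

/-- The representation on the `5`-torsion is reducible. -/
theorem not_irreducible_five {W : WeierstrassCurve ℤ} (hΔ : W.Δ ≠ 0) (hW : W.IsSemistableModel)
    (h11 : ∀ q : ℕ, q.Prime → ((q : ℤ) ∣ W.Δ ↔ q = 11)) : ¬ W.ModRepIsIrreducible 5 := by
  refine not_irreducible_of_dvd hΔ Nat.prime_five (by norm_num) fun ℓ hℓ hg _ => ?_
  rw [apOfModel_eq hΔ hW h11 hℓ fun h => hg ((h11 ℓ hℓ).mpr h)]
  exact five_dvd hℓ

/-! ### Curves with a point of order `5` -/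

theorem T_c₄_eq (u v : ℤ) : (T u v).c₄ = 5 * v ^ 3 * (11 * u + v) +
    (u ^ 2 - 11 * u * v - v ^ 2) * (u ^ 2 - u * v + 4 * v ^ 2) := by
  rw [T_c₄]; ring

/-- **The core**: `E` has a rational point of order `5` and is the image of a curve `W` with good
reduction outside `11`. -/
theorem exists_change_of_isogeny {W : WeierstrassCurve ℤ}
    (h11 : ∀ q : ℕ, q.Prime → (q : ℤ) ∣ W.Δ → q = 11) (E : WeierstrassCurve ℚ) [E.IsElliptic]
    (P : Pts E) (hP : addOrderOf P = 5) (hfix : ∀ σ : Gam, σ • P = P)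
    (φ : Mazur.Pt W →+ Pts E) (hφs : Function.Surjective φ)
    (hφe : ∀ (σ : Gam) (x : Mazur.Pt W), φ (σ • x) = σ • φ x) {n : ℕ} (hn : n ≠ 0)
    (hker : ∀ x, φ x = 0 → n • x = 0) :
    ∃ A, (A = A1 ∨ A = A3) ∧ ∃ C : VariableChange ℚ, C • E = A.map (Int.castRingHom ℚ) := by
  obtain ⟨W', C, e, hC, he, hN⟩ := exists_normal_change E Nat.prime_five (by norm_num) P hP hfix
  obtain ⟨u, v, hco, hu, hv, rfl⟩ := exists_T hN
  have hΔ' := T_Δ_ne_zero hu hv
  -- multiplicative reduction of `T u v` outside `11` is impossible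
  have hkey : ∀ q : ℕ, q.Prime → (q : ℤ) ∣ (T u v).Δ → ¬ (q : ℤ) ∣ (T u v).c₄ → q = 11 := by
    intro q hq hd hc
    by_contra hne
    refine hc (dvd_c₄_of_good (W := W) (n := n) hΔ' (e.toAddMonoidHom.comp φ) ?_ ?_ hn ?_ hq
      (fun h => hne (h11 q hq h)) hd)
    · exact e.surjective.comp hφs
    · intro σ x
      change e (φ (σ • x)) = σ • e (φ x)
      rw [hφe, he]
    · intro x hx
      have h1 : e (φ x) = 0 := hx
      exact hker x (by rwa [map_eq_zero_iff e e.injective] at h1)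
  have hnot : ∀ q : ℕ, q.Prime → ¬ ((q : ℤ) ∣ u ∧ (q : ℤ) ∣ v) := fun q hq h =>
    (Nat.prime_iff_prime_int.mp hq).not_isUnit (hco.isUnit_of_dvd' h.1 h.2)
  have hpow : ∀ (q : ℕ) (m : ℕ) (x : ℤ), q.Prime → (q : ℤ) ∣ x ^ m → (q : ℤ) ∣ x :=
    fun q m x hq h => (Nat.prime_iff_prime_int.mp hq).dvd_of_dvd_pow h
  have hmul : ∀ (q : ℕ) (x y : ℤ), q.Prime → (q : ℤ) ∣ x * y → (q : ℤ) ∣ x ∨ (q : ℤ) ∣ y :=
    fun q x y hq h => (Nat.prime_iff_prime_int.mp hq).dvd_or_dvd h
  -- the primes of `u v`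
  have huv : ∀ q : ℕ, q.Prime → (q : ℤ) ∣ u * v → q = 11 := by
    intro q hq hd
    refine hkey q hq ?_ fun hc => ?_
    · rw [T_Δ, ← mul_pow]
      exact (dvd_pow hd (by norm_num)).mul_right _
    · rcases hmul q u v hq hd with h | h
      · refine hnot q hq ⟨h, hpow q 4 v hq ?_⟩
        have h1 : v ^ 4 = (T u v).c₄ - u * (u ^ 3 - 12 * u ^ 2 * v + 14 * u * v ^ 2 +
            12 * v ^ 3) := by rw [T_c₄]; ring
        rw [h1]
        exact dvd_sub hc (h.mul_right _)
      · refine hnot q hq ⟨hpow q 4 u hq ?_, h⟩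
        have h1 : u ^ 4 = (T u v).c₄ - v * (-12 * u ^ 3 + 14 * u ^ 2 * v + 12 * u * v ^ 2 +
            v ^ 3) := by rw [T_c₄]; ring
        rw [h1]
        exact dvd_sub hc (h.mul_right _)
  have h5 : ¬ (5 : ℤ) ∣ u * v := by
    intro hd
    have := huv 5 Nat.prime_five (by exact_mod_cast hd)
    omega
  -- the primes of the third factor
  have hall : ∀ q : ℕ, q.Prime → (q : ℤ) ∣ u * v * (u ^ 2 - 11 * u * v - v ^ 2) →
      q = 5 ∨ q = 11 := by
    intro q hq hd
    rcases hmul q _ _ hq hd with h | h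
    · exact Or.inr (huv q hq h)
    · by_cases hq5 : q = 5
      · exact Or.inl hq5
      right
      refine hkey q hq ?_ fun hc => ?_
      · rw [T_Δ]; exact h.mul_left _
      · rw [T_c₄_eq] at hc
        have h1 : (q : ℤ) ∣ 5 * v ^ 3 * (11 * u + v) := by
          have := dvd_sub hc (h.mul_right (u ^ 2 - u * v + 4 * v ^ 2))
          rwa [add_sub_cancel_right] at this
        rcases hmul q _ _ hq h1 with h2 | h2
        · rcases hmul q _ _ hq h2 with h3 | h3
          · have h4 : q ∣ 5 := by exact_mod_cast h3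
            exact hq5 ((Nat.prime_dvd_prime_iff_eq hq Nat.prime_five).mp h4)
          · have h4 := hpow q 3 v hq h3
            refine hnot q hq ⟨hpow q 2 u hq ?_, h4⟩
            have h6 : u ^ 2 = (u ^ 2 - 11 * u * v - v ^ 2) + v * (11 * u + v) := by ring
            rw [h6]
            exact dvd_add h (h4.mul_right _)
        · have h6 : u ^ 2 = (u ^ 2 - 11 * u * v - v ^ 2) + (11 * u + v) * v := by ring
          have h7 : (q : ℤ) ∣ u := hpow q 2 u hq (by
            rw [h6]; exact dvd_add h (h2.mul_right _))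
          refine hnot q hq ⟨h7, ?_⟩
          have h8 : v = (11 * u + v) - u * 11 := by ring
          rw [h8]
          exact dvd_sub h2 (h7.mul_right _)
  obtain ⟨A, hA, C', hC'⟩ := exists_change (eq_of_primes hco hu hv h5 hall)
  exact ⟨A, hA, C' * C, by rw [mul_smul, hC, hC']⟩

/-- The curve over `ℚ` is elliptic. -/
theorem isElliptic_map {W : WeierstrassCurve ℤ} (hΔ : W.Δ ≠ 0) :
    (W.map (Int.castRingHom ℚ)).IsElliptic :=
  ⟨by
    rw [WeierstrassCurve.map_Δ, isUnit_iff_ne_zero, eq_intCast, Int.cast_ne_zero]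
    exact hΔ⟩

/-- **Curves with good reduction outside `11` and a rational point of order `5`**: no modularity. -/
theorem exists_change_of_point {W : WeierstrassCurve ℤ} (hΔ : W.Δ ≠ 0)
    (h11 : ∀ q : ℕ, q.Prime → (q : ℤ) ∣ W.Δ → q = 11) (P : Mazur.Pt W) (hP : addOrderOf P = 5)
    (hfix : ∀ σ : Gam, σ • P = P) :
    ∃ A, (A = A1 ∨ A = A3) ∧
      ∃ C : VariableChange ℚ, C • W.map (Int.castRingHom ℚ) = A.map (Int.castRingHom ℚ) := by
  have := isElliptic_map hΔ
  exact exists_change_of_isogeny h11 (W.map (Int.castRingHom ℚ)) P hP hfix (AddMonoidHom.id _)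
    Function.surjective_id (fun _ _ => rfl) one_ne_zero
    (fun x hx => by rw [one_smul]; exact hx)

/-- **The elliptic curves of conductor `11`**: a semistable curve over `ℚ` whose only bad prime is
`11` is isomorphic over `ℚ` to `y² + y = x³ - x²` or `y² + y = x³ - x² - 10 x - 20`, or it has a
rational isogeny of degree `5` to one of them. -/
theorem conductor_eleven {W : WeierstrassCurve ℤ} (hΔ : W.Δ ≠ 0) (hW : W.IsSemistableModel)
    (h11 : ∀ q : ℕ, q.Prime → ((q : ℤ) ∣ W.Δ ↔ q = 11)) :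
    ∃ A, (A = A1 ∨ A = A3) ∧
      ((∃ C : VariableChange ℚ, C • W.map (Int.castRingHom ℚ) = A.map (Int.castRingHom ℚ)) ∨
        ∃ φ : Mazur.Pt W →+ Mazur.Pt A, Function.Surjective φ ∧
          (∀ (σ : Gam) (x : Mazur.Pt W), φ (σ • x) = σ • φ x) ∧ Nat.card φ.ker = 5) := by
  have hell := isElliptic_map hΔ
  rcases Mazur.exists_point_or_line hΔ hW Nat.prime_five (by norm_num)
    (not_irreducible_five hΔ hW h11) with ⟨Q, hQ, hfix⟩ | ⟨L, hL, hst, htriv⟩
  · obtain ⟨A, hA, h⟩ := exists_change_of_point hΔ (fun q hq h => (h11 q hq).mp h) Q hQ hfix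
    exact ⟨A, hA, Or.inl h⟩
  · obtain ⟨E, hE, φ, hφs, hφe, hφk⟩ := quotients Nat.prime_five (by norm_num)
      (W.map (Int.castRingHom ℚ)) L hL hst
    have : Finite L := Nat.finite_of_card_ne_zero (by rw [hL]; norm_num)
    have hL5 : ∀ x ∈ L, 5 • x = 0 := by
      intro x hx
      have h1 : Nat.card L • (⟨x, hx⟩ : L) = 0 := card_nsmul_eq_zero'
      rw [hL] at h1
      exact congrArg (fun z : L => (z : Mazur.Pt W)) h1
    have hker : ∀ x, φ x = 0 → 5 • x = 0 := fun x hx =>
      hL5 x (by rw [← hφk]; exact hx)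
    -- a point of order `5` outside `L`
    obtain ⟨S, hS5, hSL⟩ : ∃ S : Mazur.Pt W, 5 • S = 0 ∧ S ∉ L := by
      by_contra hcon
      push Not at hcon
      have hcard := Torsion.card_torsionBy_rat (W := W.map (Int.castRingHom ℚ))
        hell.isUnit.ne_zero (n := 5) (by norm_num)
      have h1 : Nat.card (Submodule.torsionBy ℤ
          ((W.map (Int.castRingHom ℚ))⁄(AlgebraicClosure ℚ)).Point ((5 : ℕ) : ℤ)) ≤
            Nat.card L := by
        refine Nat.card_le_card_of_injective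
          (fun x => ⟨x.1, hcon x.1 ?_⟩) fun x y h => Subtype.ext (congrArg (fun z : L => (z : Mazur.Pt W)) h)
        have h2 := (Submodule.mem_torsionBy_iff _ _).mp x.2
        rw [natCast_zsmul] at h2
        exact h2
      rw [hcard, hL] at h1
      norm_num at h1
    have hS0 : φ S ≠ 0 := fun h => hSL (by rw [← hφk]; exact h)
    have hP : addOrderOf (φ S) = 5 := by
      have : Fact (Nat.Prime 5) := ⟨Nat.prime_five⟩
      exact addOrderOf_eq_prime (by rw [← map_nsmul, hS5, _root_.map_zero]) hS0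
    have hfix : ∀ σ : Gam, σ • φ S = φ S := by
      intro σ
      rw [← hφe, ← sub_eq_zero, ← map_sub]
      have h1 := htriv S hS5 σ
      rw [← hφk] at h1
      exact h1
    obtain ⟨A, hA, C, hC⟩ := exists_change_of_isogeny (fun q hq h => (h11 q hq).mp h) E (φ S) hP
      hfix φ hφs hφe (n := 5) (by norm_num) hker
    obtain ⟨e, he, -⟩ := Mazur.exists_equiv_coord hE.isUnit.ne_zero hC
    refine ⟨A, hA, Or.inr ⟨e.symm.toAddMonoidHom.comp φ, e.symm.surjective.comp hφs, ?_, ?_⟩⟩
    · intro σ x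
      change e.symm (φ (σ • x)) = σ • e.symm (φ x)
      apply e.injective
      rw [he, AddEquiv.apply_symm_apply, AddEquiv.apply_symm_apply, hφe]
    · have h1 : (e.symm.toAddMonoidHom.comp φ).ker = L := by
        rw [← hφk]
        ext x
        rw [AddMonoidHom.mem_ker, AddMonoidHom.mem_ker]
        change e.symm (φ x) = 0 ↔ φ x = 0
        rw [map_eq_zero_iff e.symm e.symm.injective]
      rw [h1, hL]

end Fermat.Agent.Cor.Eleven
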