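import Fermat.Agent.Corollaries.Eleven.Main

/-!
# Semistable curves with one bad prime and a rational point of order `5`

A semistable Weierstrass equation over `ℤ` with at most one bad prime `q` and a rational point of
order `5` has `q = 11` (and is isomorphic to `A1` or `A3`).  No modularity is used: the curve is
isomorphic to `T u v`, and `u v (u² - 11 u v - v²)` is, up to sign, a power of `q`.
-/

set_option autoImplicit false

noncomputable section

namespace Fermat.Agent.Cor.Eleven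

open WeierstrassCurve WeierstrassCurve.Affine
open Fermat.Agent.Cor.K1

/-- An integral equation with additive reduction at `ℓ` of a curve which has an equation semistable
at `ℓ` is not minimal at `ℓ`: `ℓ ^ 12` divides its discriminant. -/
theorem pow_twelve_dvd_Δ {W T : WeierstrassCurve ℤ} (hΔ : W.Δ ≠ 0) (hΔ' : T.Δ ≠ 0)
    {C : VariableChange ℚ} (hC : C • W.map (Int.castRingHom ℚ) = T.map (Int.castRingHom ℚ))
    {ℓ : ℕ} (hℓ : ℓ.Prime) (hss : (ℓ : ℤ) ∣ W.Δ → ¬ (ℓ : ℤ) ∣ W.c₄) (h4 : (ℓ : ℤ) ∣ T.c₄)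
    (hd : (ℓ : ℤ) ∣ T.Δ) : (ℓ : ℤ) ^ 12 ∣ T.Δ := by
  have : Fact ℓ.Prime := ⟨hℓ⟩
  set z : ℚ := ((C.u⁻¹ : ℚˣ) : ℚ) with hz
  have hz0 : z ≠ 0 := Units.ne_zero _
  have hΔeq : (T.Δ : ℚ) = z ^ 12 * (W.Δ : ℚ) := by
    have h1 := variableChange_Δ (W.map (Int.castRingHom ℚ)) C
    rw [hC, WeierstrassCurve.map_Δ, WeierstrassCurve.map_Δ] at h1
    exact h1
  have hc₄eq : (T.c₄ : ℚ) = z ^ 4 * (W.c₄ : ℚ) := by
    have h1 := variableChange_c₄ (W.map (Int.castRingHom ℚ)) C
    rw [hC, WeierstrassCurve.map_c₄, WeierstrassCurve.map_c₄] at h1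
    exact h1
  have hWq : (W.Δ : ℚ) ≠ 0 := by exact_mod_cast hΔ
  have hv : (padicValInt ℓ T.Δ : ℤ) = 12 * padicValRat ℓ z + (padicValInt ℓ W.Δ : ℤ) := by
    rw [← padicValRat.of_int, ← padicValRat.of_int, hΔeq, padicValRat.mul (pow_ne_zero _ hz0) hWq,
      padicValRat.pow]
    push_cast
    ring
  have hpos : 0 < padicValInt ℓ T.Δ := by
    rw [Nat.pos_iff_ne_zero]
    intro h0
    rcases padicValInt.eq_zero_iff.mp h0 with h2 | h2 | h2
    · exact hℓ.one_lt.ne' h2
    · exact hΔ' h2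
    · exact h2 hd
  have hz1 : 1 ≤ padicValRat ℓ z := by
    by_cases hbad : (ℓ : ℤ) ∣ W.Δ
    · have hc := hss hbad
      have hc0 : W.c₄ ≠ 0 := fun h0 => hc (by rw [h0]; exact dvd_zero _)
      have hcq : (W.c₄ : ℚ) ≠ 0 := by exact_mod_cast hc0
      have hcT : T.c₄ ≠ 0 := by
        intro h0
        rw [h0, Int.cast_zero] at hc₄eq
        exact mul_ne_zero (pow_ne_zero _ hz0) hcq hc₄eq.symm
      have h1 : (padicValInt ℓ T.c₄ : ℤ) = 4 * padicValRat ℓ z + (padicValInt ℓ W.c₄ : ℤ) := by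
        rw [← padicValRat.of_int, ← padicValRat.of_int, hc₄eq,
          padicValRat.mul (pow_ne_zero _ hz0) hcq, padicValRat.pow]
        push_cast
        ring
      have h2 : padicValInt ℓ W.c₄ = 0 := padicValInt.eq_zero_of_not_dvd hc
      have h3 : 0 < padicValInt ℓ T.c₄ := by
        rw [Nat.pos_iff_ne_zero]
        intro h0
        rcases padicValInt.eq_zero_iff.mp h0 with h5 | h5 | h5
        · exact hℓ.one_lt.ne' h5
        · exact hcT h5
        · exact h5 h4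
      rw [h2] at h1
      push_cast at h1
      omega
    · have h2 : padicValInt ℓ W.Δ = 0 := padicValInt.eq_zero_of_not_dvd hbad
      rw [h2] at hv
      push_cast at hv
      omega
  have h12 : 12 ≤ padicValInt ℓ T.Δ := by omega
  exact (padicValInt_dvd_iff 12 T.Δ).mpr (Or.inr h12)

/-- `x² - 11 x - 1 = ± 1` with `|x|` a power `q ^ k`, `k ≥ 1`, of a prime: `q = 11`. -/
theorem eq_eleven_of_natAbs {x : ℤ} {q k : ℕ} (hq : q.Prime) (hk : x.natAbs = q ^ (k + 1))
    (hD : (x ^ 2 - 11 * x - 1).natAbs = 1) : q = 11 := by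
  rcases Int.natAbs_eq_iff.mp hD with h | h
  · -- `x² - 11 x - 2 = 0`
    exfalso
    push_cast at h
    have h1 : (2 * x - 11) ^ 2 = 129 := by linear_combination 4 * h
    have h2 : (2 * x - 11) < 12 := by nlinarith
    have h3 : -12 < (2 * x - 11) := by nlinarith
    have h4 : 11 < 2 * x - 11 ∨ 2 * x - 11 < -11 := by
      by_contra hcon
      push Not at hcon
      nlinarith [hcon.1, hcon.2]
    omega
  · push_cast at h
    have h1 : x * (x - 11) = 0 := by linear_combination h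
    have h0 : x ≠ 0 := by
      rintro rfl
      simp only [Int.natAbs_zero] at hk
      exact (pow_ne_zero (k + 1) hq.ne_zero) hk.symm
    have h2 : x = 11 := by
      rcases mul_eq_zero.mp h1 with h3 | h3
      · exact absurd h3 h0
      · omega
    rw [h2] at hk
    have h3 : q ∣ 11 := by
      have h4 : q ∣ (11 : ℤ).natAbs := by rw [hk]; exact dvd_pow_self q (by omega)
      exact h4
    exact (Nat.prime_dvd_prime_iff_eq hq Nat.prime_eleven).mp h3

/-- If all prime divisors of `u v (u² - 11 u v - v²)` are equal to `q`, then `q = 11`. -/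
theorem eq_eleven_of_primes {u v : ℤ} (hco : IsCoprime u v) (hu : u ≠ 0) (hv : v ≠ 0) {q : ℕ}
    (hq : q.Prime) (hD0 : u ^ 2 - 11 * u * v - v ^ 2 ≠ 0)
    (h : ∀ r : ℕ, r.Prime → (r : ℤ) ∣ u * v * (u ^ 2 - 11 * u * v - v ^ 2) → r = q) : q = 11 := by
  obtain ⟨i, hi⟩ := natAbs_eq_pow hu q fun r hr hd => h r hr ((hd.mul_right v).mul_right _)
  obtain ⟨j, hj⟩ := natAbs_eq_pow hv q fun r hr hd => h r hr ((hd.mul_left u).mul_right _)
  obtain ⟨k, hk⟩ := natAbs_eq_pow hD0 q fun r hr hd => h r hr (hd.mul_left _)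
  have hqi := Nat.prime_iff_prime_int.mp hq
  have hdvd : ∀ (x : ℤ) (m : ℕ), x.natAbs = q ^ m → m ≠ 0 → (q : ℤ) ∣ x := by
    intro x m hx hm
    have h1 : q ∣ x.natAbs := by rw [hx]; exact dvd_pow_self q hm
    exact Int.natCast_dvd.mpr h1
  have hk0 : (q : ℤ) ∣ u ∨ (q : ℤ) ∣ v → k = 0 := by
    intro huv
    by_contra hk0
    have h1 := hdvd _ k hk hk0
    rcases huv with h2 | h2
    · refine hqi.not_isUnit (hco.isUnit_of_dvd' h2 (hqi.dvd_of_dvd_pow (n := 2) ?_))
      have h3 : v ^ 2 = u * (u - 11 * v) - (u ^ 2 - 11 * u * v - v ^ 2) := by ring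
      rw [h3]
      exact dvd_sub (h2.mul_right _) h1
    · refine hqi.not_isUnit (hco.isUnit_of_dvd' (hqi.dvd_of_dvd_pow (n := 2) ?_) h2)
      have h3 : u ^ 2 = v * (11 * u + v) + (u ^ 2 - 11 * u * v - v ^ 2) := by ring
      rw [h3]
      exact dvd_add (h2.mul_right _) h1
  rcases Nat.eq_zero_or_pos i with rfl | hipos
  · rw [pow_zero] at hi
    have hu1 : u ^ 2 = 1 := by
      rcases Int.natAbs_eq_iff.mp hi with h1 | h1 <;> rw [h1] <;> norm_num
    rcases Nat.eq_zero_or_pos j with rfl | hjpos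
    · rw [pow_zero] at hj
      have hD : (u ^ 2 - 11 * u * v - v ^ 2).natAbs = 11 := by
        rcases Int.natAbs_eq_iff.mp hi with h1 | h1 <;>
          rcases Int.natAbs_eq_iff.mp hj with h2 | h2 <;> rw [h1, h2] <;> norm_num
      rw [hD] at hk
      have hk1 : k ≠ 0 := by
        rintro rfl
        norm_num at hk
      have h3 : q ∣ 11 := by rw [hk]; exact dvd_pow_self q hk1
      exact (Nat.prime_dvd_prime_iff_eq hq Nat.prime_eleven).mp h3
    · obtain ⟨j', rfl⟩ : ∃ j', j = j' + 1 := ⟨j - 1, by omega⟩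
      rw [hk0 (Or.inr (hdvd v _ hj (by omega))), pow_zero] at hk
      refine eq_eleven_of_natAbs (x := -(u * v)) (k := j') hq ?_ ?_
      · rw [Int.natAbs_neg, Int.natAbs_mul, hi, hj, one_mul]
      · rw [← hk, ← Int.natAbs_neg]
        congr 1
        linear_combination (-(v ^ 2 + 1)) * hu1
  · obtain ⟨i', rfl⟩ : ∃ i', i = i' + 1 := ⟨i - 1, by omega⟩
    have hqu := hdvd u _ hi (by omega)
    have hj0 : j = 0 := by
      by_contra hj0
      exact hqi.not_isUnit (hco.isUnit_of_dvd' hqu (hdvd v j hj hj0))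
    rw [hj0, pow_zero] at hj
    have hv1 : v ^ 2 = 1 := by
      rcases Int.natAbs_eq_iff.mp hj with h1 | h1 <;> rw [h1] <;> norm_num
    rw [hk0 (Or.inl hqu), pow_zero] at hk
    refine eq_eleven_of_natAbs (x := u * v) (k := i') hq ?_ ?_
    · rw [Int.natAbs_mul, hi, hj, mul_one]
    · rw [← hk]
      congr 1
      linear_combination (u ^ 2 + 1) * hv1

/-- **A semistable curve over `ℚ` with a rational point of order `5` and at most one bad prime `q`
has `q = 11`** (and is `y² + y = x³ - x²` or `y² + y = x³ - x² - 10 x - 20`). -/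
theorem eq_eleven_of_point {W : WeierstrassCurve ℤ} (hΔ : W.Δ ≠ 0) (hW : W.IsSemistableModel)
    {q : ℕ} (hq : q.Prime) (hone : ∀ r : ℕ, r.Prime → (r : ℤ) ∣ W.Δ → r = q) (P : Mazur.Pt W)
    (hP : addOrderOf P = 5) (hfix : ∀ σ : Gam, σ • P = P) :
    q = 11 ∧ ∃ A, (A = A1 ∨ A = A3) ∧
      ∃ C : VariableChange ℚ, C • W.map (Int.castRingHom ℚ) = A.map (Int.castRingHom ℚ) := by
  suffices h : q = 11 by
    subst h
    exact ⟨rfl, exists_change_of_point hΔ hone P hP hfix⟩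
  have := isElliptic_map hΔ
  obtain ⟨W', C, e, hC, he, hN⟩ := exists_normal_change (W.map (Int.castRingHom ℚ))
    Nat.prime_five (by norm_num) P hP hfix
  obtain ⟨u, v, hco, hu, hv, rfl⟩ := exists_T hN
  have hΔ' := T_Δ_ne_zero hu hv
  have hkey : ∀ r : ℕ, r.Prime → (r : ℤ) ∣ (T u v).Δ → ¬ (r : ℤ) ∣ (T u v).c₄ → r = q := by
    intro r hr hd hc
    by_contra hne
    refine hc (dvd_c₄_of_good (W := W) (n := 1) hΔ' e.toAddMonoidHom e.surjective
      (fun σ x => he σ x) one_ne_zero ?_ hr (fun h => hne (hone r hr h)) hd)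
    intro x hx
    have h1 : e x = 0 := hx
    rw [map_eq_zero_iff e e.injective] at h1
    rw [h1]
    exact nsmul_zero 1
  have hnot : ∀ r : ℕ, r.Prime → ¬ ((r : ℤ) ∣ u ∧ (r : ℤ) ∣ v) := fun r hr h =>
    (Nat.prime_iff_prime_int.mp hr).not_isUnit (hco.isUnit_of_dvd' h.1 h.2)
  have hpow : ∀ (r : ℕ) (m : ℕ) (x : ℤ), r.Prime → (r : ℤ) ∣ x ^ m → (r : ℤ) ∣ x :=
    fun r m x hr h => (Nat.prime_iff_prime_int.mp hr).dvd_of_dvd_pow h
  have hmul : ∀ (r : ℕ) (x y : ℤ), r.Prime → (r : ℤ) ∣ x * y → (r : ℤ) ∣ x ∨ (r : ℤ) ∣ y :=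
    fun r x y hr h => (Nat.prime_iff_prime_int.mp hr).dvd_or_dvd h
  -- `c₄` is prime to `u v`
  have hc₄ : ∀ r : ℕ, r.Prime → (r : ℤ) ∣ u * v → ¬ (r : ℤ) ∣ (T u v).c₄ := by
    intro r hr hd hc
    rcases hmul r u v hr hd with h | h
    · refine hnot r hr ⟨h, hpow r 4 v hr ?_⟩
      have h1 : v ^ 4 = (T u v).c₄ - u * (u ^ 3 - 12 * u ^ 2 * v + 14 * u * v ^ 2 +
          12 * v ^ 3) := by rw [T_c₄]; ring
      rw [h1]
      exact dvd_sub hc (h.mul_right _)
    · refine hnot r hr ⟨hpow r 4 u hr ?_, h⟩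
      have h1 : u ^ 4 = (T u v).c₄ - v * (-12 * u ^ 3 + 14 * u ^ 2 * v + 12 * u * v ^ 2 +
          v ^ 3) := by rw [T_c₄]; ring
      rw [h1]
      exact dvd_sub hc (h.mul_right _)
  have hD0 : u ^ 2 - 11 * u * v - v ^ 2 ≠ 0 := by
    intro h0
    rw [T_Δ, h0, mul_zero] at hΔ'
    exact hΔ' rfl
  -- `5` does not divide the third factor
  have hD5 : ¬ (5 : ℤ) ∣ u ^ 2 - 11 * u * v - v ^ 2 := by
    intro hd
    have h5 : Nat.Prime 5 := Nat.prime_five
    have hv5 : ¬ (5 : ℤ) ∣ v := by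
      intro h
      refine hnot 5 h5 ⟨hpow 5 2 u h5 ?_, by exact_mod_cast h⟩
      have h6 : u ^ 2 = (u ^ 2 - 11 * u * v - v ^ 2) + v * (11 * u + v) := by ring
      rw [h6]
      exact_mod_cast dvd_add hd (h.mul_right _)
    have hu5 : ¬ (5 : ℤ) ∣ u := by
      intro h
      refine hnot 5 h5 ⟨by exact_mod_cast h, hpow 5 2 v h5 ?_⟩
      have h6 : v ^ 2 = u * (u - 11 * v) - (u ^ 2 - 11 * u * v - v ^ 2) := by ring
      rw [h6]
      exact_mod_cast dvd_sub (h.mul_right _) hd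
    have h4 : ((5 : ℕ) : ℤ) ∣ (T u v).c₄ := by
      rw [T_c₄_eq]
      refine dvd_add ?_ ?_
      · exact ⟨v ^ 3 * (11 * u + v), by push_cast; ring⟩
      · exact_mod_cast hd.mul_right _
    have hdT : ((5 : ℕ) : ℤ) ∣ (T u v).Δ := by
      rw [T_Δ]
      exact_mod_cast hd.mul_left _
    have h12 := pow_twelve_dvd_Δ hΔ hΔ' hC h5 (hW 5 h5) h4 hdT
    rw [T_Δ, ← mul_pow] at h12
    have hp5 : Prime (5 : ℤ) := by norm_num
    have hco5 : IsCoprime ((5 : ℤ) ^ 12) ((u * v) ^ 5) := by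
      refine IsCoprime.pow (hp5.coprime_iff_not_dvd.mpr fun h => ?_)
      rcases hp5.dvd_or_dvd h with h | h
      · exact hu5 h
      · exact hv5 h
    have h7 : (5 : ℤ) ^ 12 ∣ u ^ 2 - 11 * u * v - v ^ 2 :=
      hco5.dvd_of_dvd_mul_left (by exact_mod_cast h12)
    exact not_dvd_of_not_dvd (u := u) hv5 (dvd_trans (by norm_num) h7)
  refine eq_eleven_of_primes hco hu hv hq hD0 fun r hr hd => ?_
  rcases hmul r _ _ hr hd with h | h
  · refine hkey r hr ?_ (hc₄ r hr h)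
    rw [T_Δ, ← mul_pow]
    exact (dvd_pow h (by norm_num)).mul_right _
  · have hr5 : r ≠ 5 := by
      rintro rfl
      exact hD5 (by exact_mod_cast h)
    refine hkey r hr ?_ fun hc => ?_
    · rw [T_Δ]; exact h.mul_left _
    · rw [T_c₄_eq] at hc
      have h1 : (r : ℤ) ∣ 5 * v ^ 3 * (11 * u + v) := by
        have := dvd_sub hc (h.mul_right (u ^ 2 - u * v + 4 * v ^ 2))
        rwa [add_sub_cancel_right] at this
      rcases hmul r _ _ hr h1 with h2 | h2
      · rcases hmul r _ _ hr h2 with h3 | h3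
        · have h4 : r ∣ 5 := by exact_mod_cast h3
          exact hr5 ((Nat.prime_dvd_prime_iff_eq hr Nat.prime_five).mp h4)
        · have h4 := hpow r 3 v hr h3
          refine hnot r hr ⟨hpow r 2 u hr ?_, h4⟩
          have h6 : u ^ 2 = (u ^ 2 - 11 * u * v - v ^ 2) + v * (11 * u + v) := by ring
          rw [h6]
          exact dvd_add h (h4.mul_right _)
      · have h6 : u ^ 2 = (u ^ 2 - 11 * u * v - v ^ 2) + (11 * u + v) * v := by ring
        have h7 : (r : ℤ) ∣ u := hpow r 2 u hr (by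
          rw [h6]; exact dvd_add h (h2.mul_right _))
        refine hnot r hr ⟨h7, ?_⟩
        have h8 : v = (11 * u + v) - u * 11 := by ring
        rw [h8]
        exact dvd_sub h2 (h7.mul_right _)

end Fermat.Agent.Cor.Eleven
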